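/-
S15 cell, brick (M*) — the instances from main (helper42).

* `m1Of : Asm42.M1Of`            — (M1) = main's `M1.Inst36.velu_pair_modular`;
* `placeUnique : Fix42.PlaceUnique`, `placeFix : Asm42.PlaceFix`
                                 — (M3c) = main's `M3.Unique11.place_unique_of_type_inf`;
* `redInf : Asm42.RedInf`        — (MS-c) = main's `G2.RedInf85.redInf` (helper85): a place of
                                   type `∞` has the same reduction as the cusp `∞`.
-/
import Mathlib
import Fermat.Agent.S15P.MStar.Fix42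
import Fermat.Agent.S15P.M1.Inst36
import Fermat.Agent.S15P.M3.Unique11
import Fermat.Agent.S15P.G2.RedInf85

set_option autoImplicit false
set_option synthInstance.maxHeartbeats 400000

noncomputable section

namespace Fermat.Agent.S15P.MStar.Inst42

open AlgebraicCurve ModularCurve Fermat.Agent.S24 Fermat.Agent.S15P.Cusp45
open Fermat.Agent.S15P.MStar.Asm42

/-- **(M1)**, from main. -/
theorem m1Of : M1Of := fun _ _ hp hp2 E hΔ Q hQ P hP =>
  Fermat.Agent.S15P.M1.Inst36.velu_pair_modular hp hp2 E hΔ Q hQ P hP

/-- **(M3c)**, from main. -/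
theorem placeUnique : Fix42.PlaceUnique := fun _ _ hp _ hℓ hℓp h5 A hA b a hb hu x x' hx hx' =>
  Fermat.Agent.S15P.M3.Unique11.place_unique_of_type_inf hp hℓ hℓp h5 A hA b a hb hu x x'
    hx.1 hx.2 hx'.1 hx'.2

/-- **(MS-b)**: the place over the Vélu pair is Galois-fixed. -/
theorem placeFix : PlaceFix := Fix42.placeFix placeUnique

/-- **(MS-c)**: a place of type `∞` has the same reduction as the cusp `∞` (main, helper85). -/
theorem redInf : RedInf := fun p _ hp ℓ hℓ h5 hℓp A hA h b a hb hu x hx =>
  Fermat.Agent.S15P.G2.RedInf85.redInf p hp ℓ hℓ h5 hℓp A hA h b a hb hu x hx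

end Fermat.Agent.S15P.MStar.Inst42
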