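/-
S15 cell, brick (M*) — THE ASSEMBLY FOR THE INTERFACE OF RECORD (helper42):
`mStar3 : G2At3 → TopSeam3_5.MStar3 Cusp45.c0`, `g2At3 : G2At3` (main's `G2.At3_41.g2At3`, helper41),
and the hypothesis-free term `mStar3_closed : TopSeam3_5.MStar3 (fun p _ => Cusp45.c0 p)`.

Only the prime `3` / level `2p` and the prime `ℓ` (helper5's `TopSeam3_5.MStar3`).  From the
hypotheses of the frozen statement of S15 and a prime `ℓ ≥ 5`, `ℓ ≠ p`, at which `Q` lies in the
zero component: the place `x` of `X₀(p)` over the Vélu pair `(b, a) = (j(W), j(W / ⟨Q⟩))`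
(`Pair42.exists_place`, with (M1) = main's `M1.Inst36`) gives the class `y = [x − (0)]`, which

* is Galois-fixed ((M3c) = main's `M3.Unique11` through `Inst42.placeFix`, and `Cusp45.cuspGalois`),
* dies at `3` after the level pull-back `LevelPullOne5.levelPull p 2` (injective) — this is the
  hypothesis `G2At3`, the literal of (G2) at `(q, ℓ) = (2, 3)`,
* and `y + c₀ = [x − (∞)]` dies at `ℓ` (`Inst42.redInf` = main's `G2.RedInf85.redInf`: a place of
  type `∞` and the cusp `∞` have the same reduction).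
-/
import Mathlib
import Fermat.Agent.S15P.TopSeam3_5
import Fermat.Agent.S15P.LevelPullOne5
import Fermat.Agent.S15P.MStar.Inst42
import Fermat.Agent.S15P.Cusp45.Galois
import Fermat.Agent.S15P.G2.At3_41

set_option autoImplicit false
set_option synthInstance.maxHeartbeats 400000

noncomputable section

namespace Fermat.Agent.S15P.MStar.Star3_42

open WeierstrassCurve WeierstrassCurve.Affine AlgebraicCurve ModularCurve
open Fermat.Agent.S24 Fermat.Agent.S15P.Cusp45 Fermat.Agent.S15P.Interfaces80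
open Fermat.Agent.S15P.MStar.Pair42 Fermat.Agent.S15P.MStar.Asm42
open Fermat.Agent.S15P.LevelPullOne5 Fermat.Agent.S15P.TopSeam3_5
open scoped WeierstrassCurve.Affine

local notation "Qb" => AlgebraicClosure ℚ
local notation "GQ" => (AlgebraicClosure ℚ) ≃ₐ[ℚ] (AlgebraicClosure ℚ)

/-- **(G2) at `(q, ℓ) = (2, 3)`**: for a place `x` of `X₀(p)` over a pair `(b, a)` of type `0` at
a prime `A₃` over `3` (`b ∉ A₃`, `|a / b^p| < 1`), the class `[x − (0)]` dies at `A₃` after the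
level pull-back to `X₀(2p)`. -/
def G2At3 : Prop :=
  ∀ (p : ℕ) [NeZero p], p.Prime → 5 ≤ p →
    ∀ A₃ : ValuationSubring Qb, A₃.LiesOverPrime 3 →
    ∀ b a : Qb, b ∉ A₃ → A₃.valuation (a / b ^ p) < 1 →
    ∀ x : Place Qb (FN p), Over p x b a →
    reductionModL A₃ (p * 2) (levelPull p 2 (yOf p x)) = 0

/-- **(M\*), interface of record**: Mazur's point, from (G2) at `(2, 3)` alone. -/
theorem mStar3 (hG : G2At3) : MStar3 (fun p _ => c0 p) := by
  intro p _ hp hp' W hΔ Q hQfix hQord _ _ _ h3Δ h3c₄ h3 ℓ hℓ h5 hℓp hℓΔ hℓc₄ A hA hin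
  have hp2 : p ≠ 2 := by rintro rfl; simp at hp'
  have hp3 : p ≠ 3 := by rintro rfl; simp at hp'
  have hp5 : 5 ≤ p := by
    have h2' := hp.two_le
    by_contra hlt
    have : p = 2 ∨ p = 3 ∨ p = 4 := by omega
    rcases this with rfl | rfl | rfl
    · exact hp2 rfl
    · exact hp3 rfl
    · exact absurd hp (by decide)
  have h2p : ¬ 2 ∣ p := fun hd => hp2 ((Nat.prime_dvd_prime_iff_eq Nat.prime_two hp).mp hd).symm
  -- the place over the Vélu pair
  obtain ⟨x, hx⟩ := exists_place (Inst42.m1Of p hp hp2) W hΔ Q hQord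
  have hxO : Over p x (bOf W) (aOf W p Q) := hx
  -- at `ℓ`
  have hbA : bOf W ∉ A := bOf_notMem W A hΔ hℓ hℓΔ hℓc₄ hA
  have huA : A.valuation (aOf W p Q / bOf W ^ p) = 1 :=
    val_ratio_of_inZero W A hΔ hp hp2 Q hQord hℓ hℓp hℓΔ hℓc₄ hA hin
  have hxfix := Inst42.placeFix p hp ℓ hℓ h5 hℓp A hA (bOf W) (aOf W p Q) (bOf_fixed W)
    (aOf_fixed W p Q hQfix) hbA huA x hxO
  have hℓnp : ¬ ℓ ∣ p := fun hd => hℓp ((Nat.prime_dvd_prime_iff_eq hℓ hp).mp hd)
  have hR : ReductionInputsModL A p :=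
    Fermat.Agent.ESJ.reductionInputsModL_good p ℓ hℓ hℓnp (Or.inl h5) A hA
  -- a prime over 3
  obtain ⟨A₃, hA₃⟩ := Fermat.Agent.Lib.FrobeniusExists.exists_liesOverPrime Nat.prime_three
  have hb3 : bOf W ∉ A₃ := bOf_notMem W A₃ hΔ Nat.prime_three (by exact_mod_cast h3Δ)
    (by exact_mod_cast h3c₄) hA₃
  have hu3 : A₃.valuation (aOf W p Q / bOf W ^ p) < 1 :=
    val_ratio_of_not_inZero W A₃ hΔ hp Q hQord Nat.prime_three (Ne.symm hp3)
      (by exact_mod_cast h3Δ) (by exact_mod_cast h3c₄) hA₃ (h3 A₃ hA₃)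
  refine ⟨A₃, levelPull p 2, yOf p x, hA₃, isLevelPullback_levelPull p 2 Nat.prime_two h2p 1,
    ?_, ?_, ?_⟩
  · intro σ
    exact smul_ptDiv σ x (cuspZero p) (hxfix σ) (cuspGalois p hp σ).2.1
  · exact hG p hp hp5 A₃ hA₃ (bOf W) (aOf W p Q) hb3 hu3 x hxO
  · rw [yOf_add_c0]
    exact reduction_ptDiv_eq_zero hR x (cuspInf p)
      (Inst42.redInf p hp ℓ hℓ h5 hℓp A hA hR (bOf W) (aOf W p Q) hbA huA x hxO)

/-- **(G2) at `(2, 3)`**, from main (helper41's `G2.At3_41.g2At3`). -/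
theorem g2At3 : G2At3 := fun p _ hp hp5 A₃ hA₃ b a hb hu x hx =>
  Fermat.Agent.S15P.G2.At3_41.g2At3 p hp hp5 A₃ hA₃ b a hb hu x hx.1 hx.2
    (ptDiv p x (cuspZero p)) rfl

/-- **(M\*), the term of record for `S15.lean`**: `MStar3` for the cuspidal class `c₀`, with no
hypothesis. -/
theorem mStar3_closed : MStar3 (fun p _ => c0 p) := mStar3 g2At3

end Fermat.Agent.S15P.MStar.Star3_42
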