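/-
S15 cell, brick (M*) — part (MS-a) (helper42): **the Vélu pair of the frozen statement.**

For the integral model `W` and the Galois-fixed point `Q` of order `p` of the frozen statement of
S15, put

  `bOf W = c₄³ / Δ`  (`= j(W)`),   `aOf W p Q = veluC4 p Q ^ 3 * veluPsi p Q ^ 4 / Δ ^ p`
  (`= j(W / ⟨Q⟩)`).

* `bOf_fixed`, `aOf_fixed` : both are fixed by `Gal(ℚ̄/ℚ)` (`Q` Galois-fixed);
* `bOf_notMem` : at a multiplicative prime (`ℓ ∣ Δ`, `ℓ ∤ c₄`), `bOf W ∉ A`;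
* `val_ratio_of_inZero`, `val_ratio_of_not_inZero` : `A.valuation (a / b ^ p)` is `1` if `Q` lies
  in the zero component at `A`, and `< 1` otherwise (from helper89's `velu_of_inZero`,
  `velu_of_not_inZero`);
* `exists_place` : from `(M1)` (taken as the hypothesis `M1 p`, the conclusion of
  `Top89.velu_pair_modular`), a place of `X₀(p)` over `(b, a)` (helper31's `Place31.exists_place_of_pair`, on main).
-/
import Mathlib
import Fermat.Prelude.Def_EllipticCurve_ZeroComponentAt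
import Fermat.Prelude.Def_FLTPrelim_Ramification
import Fermat.Prelude.Def_FLTPrelim_GaloisRep
import Fermat.Agent.Lib.GalQbar
import Fermat.Agent.S15P.M2.Velu89
import Fermat.Agent.S15P.M3.Place31

set_option autoImplicit false

noncomputable section

namespace Fermat.Agent.S15P.MStar.Pair42

open WeierstrassCurve WeierstrassCurve.Affine IsLocalRing AlgebraicCurve ModularCurve
open Fermat.Agent.S15P.M2 Fermat.Agent.S15P.M2.Velu89 Fermat.Agent.S24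
open Fermat.Agent.S58.Red
open scoped WeierstrassCurve.Affine

local notation "Qb" => AlgebraicClosure ℚ
local notation "GQ" => (AlgebraicClosure ℚ) ≃ₐ[ℚ] (AlgebraicClosure ℚ)

/-! ### The Galois action on the Vélu quantities -/

section Galois

variable (E : WeierstrassCurve ℚ)

theorem ptX_smul (σ : GQ) (P : (E⁄Qb).Point) : ptX (σ • P) = σ (ptX P) := by
  match P with
  | .zero => exact (map_zero σ).symm
  | .some x y h => rfl

theorem ptY_smul (σ : GQ) (P : (E⁄Qb).Point) : ptY (σ • P) = σ (ptY P) := by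
  match P with
  | .zero => exact (map_zero σ).symm
  | .some x y h => rfl

theorem smul_coeff (σ : GQ) (c : ℚ) : σ (algebraMap ℚ Qb c) = algebraMap ℚ Qb c := σ.commutes c

theorem tq_smul (σ : GQ) (P : (E⁄Qb).Point) : tq (σ • P) = σ (tq P) := by
  unfold tq
  rw [ptX_smul]
  have h2 : σ ((E⁄Qb).b₂) = (E⁄Qb).b₂ := by
    simp only [Affine.baseChange, WeierstrassCurve.baseChange, map_b₂]
    exact σ.commutes _
  have h4 : σ ((E⁄Qb).b₄) = (E⁄Qb).b₄ := by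
    simp only [Affine.baseChange, WeierstrassCurve.baseChange, map_b₄]
    exact σ.commutes _
  rw [map_add, map_add, map_mul, map_mul, map_pow, h2, h4, map_ofNat]

theorem psi2_smul (σ : GQ) (P : (E⁄Qb).Point) : psi2 (σ • P) = σ (psi2 P) := by
  unfold psi2
  rw [ptX_smul, ptY_smul]
  have h1 : σ ((E⁄Qb).a₁) = (E⁄Qb).a₁ := σ.commutes _
  have h3 : σ ((E⁄Qb).a₃) = (E⁄Qb).a₃ := σ.commutes _
  rw [map_add, map_add, map_mul, map_mul, h1, h3, map_ofNat]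

theorem smul_nsmul_pt (σ : GQ) (k : ℕ) (P : (E⁄Qb).Point) : σ • (k • P) = k • (σ • P) := by
  have h := Point.algEquiv_smul_zsmul σ (k : ℤ) P
  rwa [natCast_zsmul, natCast_zsmul] at h

theorem veluC4_smul (σ : GQ) (p : ℕ) (Q : (E⁄Qb).Point) :
    veluC4 p (σ • Q) = σ (veluC4 p Q) := by
  unfold veluC4
  have hc : σ ((E⁄Qb).c₄) = (E⁄Qb).c₄ := by
    simp only [Affine.baseChange, WeierstrassCurve.baseChange, map_c₄]
    exact σ.commutes _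
  rw [map_add, map_mul, map_sum, hc, map_ofNat]
  congr 2
  refine Finset.sum_congr rfl fun k _ => ?_
  rw [← smul_nsmul_pt, tq_smul]

theorem veluPsi_smul (σ : GQ) (p : ℕ) (Q : (E⁄Qb).Point) :
    veluPsi p (σ • Q) = σ (veluPsi p Q) := by
  unfold veluPsi
  rw [map_prod]
  refine Finset.prod_congr rfl fun k _ => ?_
  rw [← smul_nsmul_pt, psi2_smul]

end Galois

/-! ### The pair -/

section Pair

variable (W : WeierstrassCurve ℤ)

/-- `j(W) = c₄³ / Δ`. -/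
def bOf : Qb := ((W.c₄ : ℤ) : Qb) ^ 3 / ((W.Δ : ℤ) : Qb)

/-- `j(W / ⟨Q⟩)`, by Vélu's formulas. -/
def aOf (p : ℕ) (Q : ((W.map (Int.castRingHom ℚ))⁄Qb).Point) : Qb :=
  veluC4 p Q ^ 3 * veluPsi p Q ^ 4 / ((W.Δ : ℤ) : Qb) ^ p

theorem bOf_fixed (σ : GQ) : σ (bOf W) = bOf W := by
  unfold bOf
  rw [map_div₀, map_pow, map_intCast, map_intCast]

theorem aOf_fixed (p : ℕ) (Q : ((W.map (Int.castRingHom ℚ))⁄Qb).Point)
    (hQfix : ∀ σ : GQ, σ • Q = Q) (σ : GQ) : σ (aOf W p Q) = aOf W p Q := by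
  unfold aOf
  rw [map_div₀, map_mul, map_pow, map_pow, map_pow, map_intCast,
    ← veluC4_smul, ← veluPsi_smul, hQfix σ]

/-- Both entries are rational. -/
theorem exists_rat (p : ℕ) (Q : ((W.map (Int.castRingHom ℚ))⁄Qb).Point)
    (hQfix : ∀ σ : GQ, σ • Q = Q) :
    ∃ b₀ a₀ : ℚ, algebraMap ℚ Qb b₀ = bOf W ∧ algebraMap ℚ Qb a₀ = aOf W p Q := by
  obtain ⟨b₀, hb⟩ := Fermat.Agent.Lib.GalQbar.exists_rat_of_fixed (bOf W) (bOf_fixed W)
  obtain ⟨a₀, ha⟩ := Fermat.Agent.Lib.GalQbar.exists_rat_of_fixed (aOf W p Q)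
    (aOf_fixed W p Q hQfix)
  exact ⟨b₀, a₀, hb, ha⟩

end Pair

/-! ### Valuations at a multiplicative prime -/

section Val

variable (W : WeierstrassCurve ℤ) {p ℓ : ℕ} (A : ValuationSubring Qb)

theorem val_c₄ (hℓ : ℓ.Prime) (hℓc₄ : ¬ (ℓ : ℤ) ∣ W.c₄) (hA : A.LiesOverPrime ℓ) :
    A.valuation ((W.c₄ : ℤ) : Qb) = 1 := by
  have : CharP (ResidueField A) ℓ :=
    Fermat.Agent.ESJ.Cong.ConjAnalytic.charP_residueField_of_liesOver A hℓ hA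
  refine val_eq_one_of_rd (rd_intCast A (residue A) W.c₄) ?_
  exact fun h => hℓc₄ ((CharP.intCast_eq_zero_iff (ResidueField A) ℓ W.c₄).mp h)

theorem val_Δ_lt (hℓ : ℓ.Prime) (hℓΔ : (ℓ : ℤ) ∣ W.Δ) (hA : A.LiesOverPrime ℓ) :
    A.valuation ((W.Δ : ℤ) : Qb) < 1 := by
  classical
  have : CharP (ResidueField A) ℓ :=
    Fermat.Agent.ESJ.Cong.ConjAnalytic.charP_residueField_of_liesOver A hℓ hA
  have h0 : ((W.Δ : ℤ) : ResidueField A) = 0 :=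
    (CharP.intCast_eq_zero_iff (ResidueField A) ℓ W.Δ).mpr hℓΔ
  have hr := rd_intCast A (residue A) W.Δ
  rw [h0] at hr
  exact val_lt_one_of_rd hr

/-- `j(W)` is not integral at a multiplicative prime. -/
theorem bOf_notMem (hΔ : W.Δ ≠ 0) (hℓ : ℓ.Prime) (hℓΔ : (ℓ : ℤ) ∣ W.Δ) (hℓc₄ : ¬ (ℓ : ℤ) ∣ W.c₄)
    (hA : A.LiesOverPrime ℓ) : bOf W ∉ A := by
  intro hmem
  have h1 : A.valuation (bOf W) ≤ 1 := (A.valuation_le_one_iff _).mpr hmem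
  have hΔ0 : ((W.Δ : ℤ) : Qb) ≠ 0 := Int.cast_ne_zero.mpr hΔ
  have hv0 : A.valuation ((W.Δ : ℤ) : Qb) ≠ 0 := (Valuation.ne_zero_iff _).mpr hΔ0
  unfold bOf at h1
  rw [map_div₀, map_pow, val_c₄ W A hℓ hℓc₄ hA, one_pow, div_le_iff₀ (zero_lt_iff.mpr hv0),
    one_mul] at h1
  exact absurd (val_Δ_lt W A hℓ hℓΔ hA) (not_lt.mpr h1)

/-- `a / b ^ p = veluC4³ · veluPsi⁴ / c₄^(3p)`. -/
theorem ratio_eq (hΔ : W.Δ ≠ 0) (hc₄ : W.c₄ ≠ 0) (p : ℕ)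
    (Q : ((W.map (Int.castRingHom ℚ))⁄Qb).Point) :
    aOf W p Q / bOf W ^ p = veluC4 p Q ^ 3 * veluPsi p Q ^ 4 / ((W.c₄ : ℤ) : Qb) ^ (3 * p) := by
  have hΔ0 : ((W.Δ : ℤ) : Qb) ≠ 0 := Int.cast_ne_zero.mpr hΔ
  have hc0 : ((W.c₄ : ℤ) : Qb) ≠ 0 := Int.cast_ne_zero.mpr hc₄
  unfold aOf bOf
  rw [div_pow, ← pow_mul]
  field_simp

theorem val_ratio (hΔ : W.Δ ≠ 0) (hℓ : ℓ.Prime) (hℓc₄ : ¬ (ℓ : ℤ) ∣ W.c₄)
    (hA : A.LiesOverPrime ℓ) (Q : ((W.map (Int.castRingHom ℚ))⁄Qb).Point)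
    (hC : A.valuation (veluC4 p Q) = 1) :
    A.valuation (aOf W p Q / bOf W ^ p) = A.valuation (veluPsi p Q) ^ 4 := by
  have hc₄ : W.c₄ ≠ 0 := fun h => hℓc₄ (h ▸ dvd_zero _)
  rw [ratio_eq W hΔ hc₄, map_div₀, map_mul, map_pow, map_pow, map_pow, hC,
    val_c₄ W A hℓ hℓc₄ hA, one_pow, one_pow, one_mul, div_one]

/-- In the zero component: `a / b ^ p` is a unit. -/
theorem val_ratio_of_inZero (hΔ : W.Δ ≠ 0) (hp : p.Prime) (hp2 : p ≠ 2)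
    (Q : ((W.map (Int.castRingHom ℚ))⁄Qb).Point) (hQord : addOrderOf Q = p)
    (hℓ : ℓ.Prime) (hℓp : ℓ ≠ p) (hℓΔ : (ℓ : ℤ) ∣ W.Δ) (hℓc₄ : ¬ (ℓ : ℤ) ∣ W.c₄)
    (hA : A.LiesOverPrime ℓ) (hin : W.InZeroComponentAt A Q) :
    A.valuation (aOf W p Q / bOf W ^ p) = 1 := by
  obtain ⟨hC, hΨ⟩ := velu_of_inZero W Q A hp hp2 hQord hℓ hℓp hℓΔ hℓc₄ hA hin
  rw [val_ratio W A hΔ hℓ hℓc₄ hA Q hC, hΨ, one_pow]

/-- Outside the zero component: `a / b ^ p` lies in the maximal ideal. -/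
theorem val_ratio_of_not_inZero (hΔ : W.Δ ≠ 0) (hp : p.Prime)
    (Q : ((W.map (Int.castRingHom ℚ))⁄Qb).Point) (hQord : addOrderOf Q = p)
    (hℓ : ℓ.Prime) (hℓp : ℓ ≠ p) (hℓΔ : (ℓ : ℤ) ∣ W.Δ) (hℓc₄ : ¬ (ℓ : ℤ) ∣ W.c₄)
    (hA : A.LiesOverPrime ℓ) (hout : ¬ W.InZeroComponentAt A Q) :
    A.valuation (aOf W p Q / bOf W ^ p) < 1 := by
  obtain ⟨hC, hΨ⟩ := velu_of_not_inZero W Q A hp hQord hℓ hℓp hℓΔ hℓc₄ hA hout
  rw [val_ratio W A hΔ hℓ hℓc₄ hA Q hC]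
  exact pow_lt_one₀ zero_le hΨ (by norm_num)

end Val

/-! ### The place over the pair -/

section Place

/-- `(M1)` as a statement: the conclusion of `Top89.velu_pair_modular` for every curve over `ℚ`
and every point of order `p`. -/
def M1 (p : ℕ) [NeZero p] : Prop :=
  ∀ (E : WeierstrassCurve ℚ), E.Δ ≠ 0 → ∀ Q : (E⁄Qb).Point, addOrderOf Q = p →
    ∀ P : MvPolynomial (Fin 2) ℚ,
      MvPolynomial.aeval ![ModularCurve.jq, ModularCurve.jqN p] P = (0 : LaurentSeries ℚ) →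
      MvPolynomial.aeval
        ![((E.c₄ : ℚ) : Qb) ^ 3 / ((E.Δ : ℚ) : Qb),
          veluC4 p Q ^ 3 * veluPsi p Q ^ 4 / ((E.Δ : ℚ) : Qb) ^ p] P = 0

/-- A place of `X₀(p)` over the Vélu pair. -/
theorem exists_place {p : ℕ} [NeZero p] (hM1 : M1 p) (W : WeierstrassCurve ℤ) (hΔ : W.Δ ≠ 0)
    (Q : ((W.map (Int.castRingHom ℚ))⁄Qb).Point) (hQord : addOrderOf Q = p) :
    ∃ x : Place Qb (FN p),
      0 < x.ord (jFormal p ⟨1, one_dvd p⟩ - algebraMap Qb (FN p) (bOf W)) ∧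
      0 < x.ord (jFormal p ⟨p, dvd_rfl⟩ - algebraMap Qb (FN p) (aOf W p Q)) := by
  refine Fermat.Agent.S15P.M3.Place31.exists_place_of_pair (bOf W) (aOf W p Q) fun P hP => ?_
  have hΔ' : (W.map (Int.castRingHom ℚ)).Δ ≠ 0 := by
    rw [map_Δ]
    simpa using hΔ
  have h := hM1 (W.map (Int.castRingHom ℚ)) hΔ' Q hQord P hP
  have e1 : (((W.map (Int.castRingHom ℚ)).c₄ : ℚ) : Qb) = ((W.c₄ : ℤ) : Qb) := by
    rw [map_c₄]
    simp
  have e2 : (((W.map (Int.castRingHom ℚ)).Δ : ℚ) : Qb) = ((W.Δ : ℤ) : Qb) := by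
    rw [map_Δ]
    simp
  rw [e1, e2] at h
  exact h

end Place

end Fermat.Agent.S15P.MStar.Pair42
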