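/-
S15 cell, brick (M*) — THE ASSEMBLY (helper42): `mStar : … → Interfaces80.MStar Cusp45.c0`.

Mazur's point.  From the hypotheses of the frozen statement of S15 and a prime `ℓ ≥ 5`, `ℓ ≠ p`,
at which `Q` lies in the zero component, the place `x` of `X₀(p)` over the Vélu pair
`(b, a) = (j(W), j(W / ⟨Q⟩))` gives the class `y = [x − (0)]`, which is Galois-fixed, dies at `2`
after the pull-back to level `3p`, dies at `3` after the pull-back to level `2p`, and `y + c₀`
dies at `ℓ`.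

The inputs are explicit hypotheses, each the statement of one brick of the (M) layer
(`x` lies over `(b, a)` means `Over p x b a`: `j − b` and `j_p − a` vanish at `x`):

* `M1Of`     : (M1) the Vélu pair satisfies the relations of `(j(q), j(q^p))` (`Pair42.M1 p`);
* `PlaceFix` : (M3c) + transport: a place over a rational pair `(b, a)` with `b ∉ A`,
               `|a / b^p|_A = 1` at some `A` over `ℓ ≥ 5` is fixed by the arithmetic Galois action;
* `RedInf`   : (M3b) + the cusp `∞̄`: such a place has the same reduction at `A` as the cusp `∞`;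
* `G2Three`, `G2Two` : (G2) a level pull-back `π : J₀(p) → J₀(3p)` (resp. `J₀(2p)`) such that the
               class `[x − (0)]` of a place over `(b, a)` with `b ∉ A'`, `|a / b^p|_{A'} < 1`
               (`A'` over `2`, resp. `3`) dies under `reductionModL A' (3p) ∘ π`;
* `CuspGalois` (helper45's interface): the cusps are Galois-fixed.
-/
import Mathlib
import Fermat.Agent.S15P.Interfaces80
import Fermat.Agent.S15P.Cusp45.Interface
import Fermat.Agent.S15P.MStar.Pair42
import Fermat.Agent.ESJ.Red.R2Good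
import Fermat.Agent.Lib.FrobeniusExists

set_option autoImplicit false

noncomputable section

namespace Fermat.Agent.S15P.MStar.Asm42

open WeierstrassCurve WeierstrassCurve.Affine AlgebraicCurve ModularCurve
open Fermat.Agent.S24 Fermat.Agent.S15P.Cusp45 Fermat.Agent.S15P.Interfaces80
open Fermat.Agent.S15P.MStar.Pair42
open scoped WeierstrassCurve.Affine

local notation "Qb" => AlgebraicClosure ℚ
local notation "GQ" => (AlgebraicClosure ℚ) ≃ₐ[ℚ] (AlgebraicClosure ℚ)

/-! ### Divisors `(x) − (P)` -/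

/-- The degree-zero divisor `(x) − (P)`. -/
def ptDiv (N : ℕ) [NeZero N] (x P : Place Qb (FN N)) :
    Divisor.degZero (K := Qb) (F := FN N) :=
  ⟨Finsupp.single x 1 - Finsupp.single P 1, by
    rw [Divisor.mem_degZero, map_sub, Divisor.degree_single, Divisor.degree_single,
      PlaceDict.deg_eq_one, PlaceDict.deg_eq_one]
    simp⟩

theorem coe_ptDiv (N : ℕ) [NeZero N] (x P : Place Qb (FN N)) :
    (ptDiv N x P : Divisor Qb (FN N)) = Finsupp.single x 1 - Finsupp.single P 1 := rfl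

/-- The class `[x − (0)]`. -/
def yOf (N : ℕ) [NeZero N] (x : Place Qb (FN N)) : JZero N := Pic0.mk (ptDiv N x (cuspZero N))

/-- `[x − (0)] + c₀ = [x − (∞)]`. -/
theorem yOf_add_c0 (N : ℕ) [NeZero N] (x : Place Qb (FN N)) :
    yOf N x + c0 N = Pic0.mk (ptDiv N x (cuspInf N)) := by
  unfold yOf c0
  rw [← Pic0.mk_add]
  refine congrArg Pic0.mk (Subtype.ext ?_)
  change (Finsupp.single x 1 - Finsupp.single (cuspZero N) 1) + cuspDiv N =
    Finsupp.single x 1 - Finsupp.single (cuspInf N) 1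
  unfold cuspDiv
  abel

/-- A class `[x − P]` of two places with the same reduction dies under the reduction. -/
theorem reduction_ptDiv_eq_zero {N : ℕ} [NeZero N] {A : ValuationSubring Qb}
    (h : ReductionInputsModL A N) (x P : Place Qb (FN N))
    (hxP : placeReductionModL h x = placeReductionModL h P) :
    reductionModL A N (Pic0.mk (ptDiv N x P)) = 0 := by
  rw [reductionModL_mk h]
  have h0 : reductionDegZeroAlong (placeReductionModL h)
      (isPlaceReductionModL_placeReductionModL h).1 (ptDiv N x P) = 0 := by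
    refine Subtype.ext ?_
    rw [coe_reductionDegZeroAlong, coe_ptDiv, Finsupp.mapDomain_sub, Finsupp.mapDomain_single,
      Finsupp.mapDomain_single, hxP, sub_self]
    rfl
  rw [h0]
  rfl

/-- A class `[x − P]` of two Galois-fixed places is Galois-fixed. -/
theorem smul_ptDiv {N : ℕ} [NeZero N] (σ : GQ) (x P : Place Qb (FN N))
    (hx : arithmeticGalois (modularFunctionFieldFull N) σ • x = x)
    (hP : arithmeticGalois (modularFunctionFieldFull N) σ • P = P) :
    σ • (Pic0.mk (ptDiv N x P) : JZero N) = Pic0.mk (ptDiv N x P) := by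
  rw [galois_smul_pic0_def, SemilinearAut.pic0_smul_mk]
  refine congrArg Pic0.mk (Subtype.ext ?_)
  rw [SemilinearAut.coe_degZeroSMulHom, coe_ptDiv, smul_sub, SemilinearAut.smul_single,
    SemilinearAut.smul_single, hx, hP]

/-! ### The inputs -/

/-- `x` lies over the pair `(b, a)`: `j − b` and `j_p − a` vanish at `x`. -/
def Over (p : ℕ) [NeZero p] (x : Place Qb (FN p)) (b a : Qb) : Prop :=
  0 < x.ord (jFormal p ⟨1, one_dvd p⟩ - algebraMap Qb (FN p) b) ∧
  0 < x.ord (jFormal p ⟨p, dvd_rfl⟩ - algebraMap Qb (FN p) a)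

/-- **(M1)** for every odd prime. -/
def M1Of : Prop := ∀ (p : ℕ) [NeZero p], p.Prime → p ≠ 2 → M1 p

/-- **(M3c) + transport**: a place over a rational pair of type `∞` at some `A` over `ℓ ≥ 5` is
fixed by the arithmetic Galois action. -/
def PlaceFix : Prop :=
  ∀ (p : ℕ) [NeZero p], p.Prime → ∀ ℓ : ℕ, ℓ.Prime → 5 ≤ ℓ → ℓ ≠ p →
    ∀ A : ValuationSubring Qb, A.LiesOverPrime ℓ →
    ∀ b a : Qb, (∀ σ : GQ, σ b = b) → (∀ σ : GQ, σ a = a) → b ∉ A → A.valuation (a / b ^ p) = 1 →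
    ∀ x : Place Qb (FN p), Over p x b a →
    ∀ σ : GQ, arithmeticGalois (modularFunctionFieldFull p) σ • x = x

/-- **(M3b) + the cusp `∞̄`**: a place over a pair of type `∞` at `A` (over `ℓ ≥ 5`, `ℓ ≠ p`) has
the same reduction at `A` as the cusp `∞`. -/
def RedInf : Prop :=
  ∀ (p : ℕ) [NeZero p], p.Prime → ∀ ℓ : ℕ, ℓ.Prime → 5 ≤ ℓ → ℓ ≠ p →
    ∀ A : ValuationSubring Qb, A.LiesOverPrime ℓ → ∀ h : ReductionInputsModL A p,
    ∀ b a : Qb, b ∉ A → A.valuation (a / b ^ p) = 1 →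
    ∀ x : Place Qb (FN p), Over p x b a →
    placeReductionModL h x = placeReductionModL h (cuspInf p)

/-- **(G2) at level `3p`, primes over `2`** (kernel of the pull-back killed by `4`). -/
def G2Three : Prop :=
  ∀ (p : ℕ) [NeZero p], p.Prime → 5 ≤ p →
    ∃ π : JZero p →+ JZero (p * 3), IsLevelPullback π 4 ∧
      ∀ A' : ValuationSubring Qb, A'.LiesOverPrime 2 →
      ∀ b a : Qb, b ∉ A' → A'.valuation (a / b ^ p) < 1 →
      ∀ x : Place Qb (FN p), Over p x b a →
      reductionModL A' (p * 3) (π (yOf p x)) = 0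

/-- **(G2) at level `2p`, primes over `3`** (kernel of the pull-back killed by `3`). -/
def G2Two : Prop :=
  ∀ (p : ℕ) [NeZero p], p.Prime → 5 ≤ p →
    ∃ π : JZero p →+ JZero (p * 2), IsLevelPullback π 3 ∧
      ∀ A' : ValuationSubring Qb, A'.LiesOverPrime 3 →
      ∀ b a : Qb, b ∉ A' → A'.valuation (a / b ^ p) < 1 →
      ∀ x : Place Qb (FN p), Over p x b a →
      reductionModL A' (p * 2) (π (yOf p x)) = 0

/-! ### The assembly -/

/-- **(M\*)**: Mazur's point, from the bricks of the (M) layer. -/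
theorem mStar (hM1 : M1Of) (hFix : PlaceFix) (hInf : RedInf) (hG3 : G2Three) (hG2 : G2Two)
    (hCG : CuspGalois) : MStar (fun p _ => c0 p) := by
  intro p _ hp hp' W hΔ Q hQfix hQord h2Δ h2c₄ h2 h3Δ h3c₄ h3 ℓ hℓ h5 hℓp hℓΔ hℓc₄ A hA hin
  have hp2 : p ≠ 2 := by rintro rfl; simp at hp'
  have hp3 : p ≠ 3 := by rintro rfl; simp at hp'
  have hp5 : 5 ≤ p := by
    have h2' := hp.two_le
    by_contra hlt
    have : p = 2 ∨ p = 3 ∨ p = 4 := by omega
    rcases this with rfl | rfl | rfl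
    · exact hp2 rfl
    · exact hp3 rfl
    · exact absurd hp (by decide)
  -- the place over the Vélu pair
  obtain ⟨x, hx⟩ := exists_place (hM1 p hp hp2) W hΔ Q hQord
  have hxO : Over p x (bOf W) (aOf W p Q) := hx
  -- at `ℓ`
  have hbA : bOf W ∉ A := bOf_notMem W A hΔ hℓ hℓΔ hℓc₄ hA
  have huA : A.valuation (aOf W p Q / bOf W ^ p) = 1 :=
    val_ratio_of_inZero W A hΔ hp hp2 Q hQord hℓ hℓp hℓΔ hℓc₄ hA hin
  have hxfix := hFix p hp ℓ hℓ h5 hℓp A hA (bOf W) (aOf W p Q) (bOf_fixed W)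
    (aOf_fixed W p Q hQfix) hbA huA x hxO
  have hℓnp : ¬ ℓ ∣ p := fun hd => hℓp ((Nat.prime_dvd_prime_iff_eq hℓ hp).mp hd)
  have hR : ReductionInputsModL A p :=
    Fermat.Agent.ESJ.reductionInputsModL_good p ℓ hℓ hℓnp (Or.inl h5) A hA
  -- primes over 2 and 3
  obtain ⟨A₂, hA₂⟩ := Fermat.Agent.Lib.FrobeniusExists.exists_liesOverPrime Nat.prime_two
  obtain ⟨A₃, hA₃⟩ := Fermat.Agent.Lib.FrobeniusExists.exists_liesOverPrime Nat.prime_three
  have hb2 : bOf W ∉ A₂ := bOf_notMem W A₂ hΔ Nat.prime_two (by exact_mod_cast h2Δ)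
    (by exact_mod_cast h2c₄) hA₂
  have hu2 : A₂.valuation (aOf W p Q / bOf W ^ p) < 1 :=
    val_ratio_of_not_inZero W A₂ hΔ hp Q hQord Nat.prime_two (Ne.symm hp2)
      (by exact_mod_cast h2Δ) (by exact_mod_cast h2c₄) hA₂ (h2 A₂ hA₂)
  have hb3 : bOf W ∉ A₃ := bOf_notMem W A₃ hΔ Nat.prime_three (by exact_mod_cast h3Δ)
    (by exact_mod_cast h3c₄) hA₃
  have hu3 : A₃.valuation (aOf W p Q / bOf W ^ p) < 1 :=
    val_ratio_of_not_inZero W A₃ hΔ hp Q hQord Nat.prime_three (Ne.symm hp3)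
      (by exact_mod_cast h3Δ) (by exact_mod_cast h3c₄) hA₃ (h3 A₃ hA₃)
  obtain ⟨π₃, hπ₃, hred₃⟩ := hG3 p hp hp5
  obtain ⟨π₂, hπ₂, hred₂⟩ := hG2 p hp hp5
  refine ⟨A₂, A₃, π₃, π₂, yOf p x, hA₂, hA₃, hπ₃, hπ₂, ?_, ?_, ?_, ?_⟩
  · intro σ
    exact smul_ptDiv σ x (cuspZero p) (hxfix σ) (hCG p hp σ).2.1
  · exact hred₃ A₂ hA₂ (bOf W) (aOf W p Q) hb2 hu2 x hxO
  · exact hred₂ A₃ hA₃ (bOf W) (aOf W p Q) hb3 hu3 x hxO
  · rw [yOf_add_c0]
    exact reduction_ptDiv_eq_zero hR x (cuspInf p)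
      (hInf p hp ℓ hℓ h5 hℓp A hA hR (bOf W) (aOf W p Q) hbA huA x hxO)

end Fermat.Agent.S15P.MStar.Asm42
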