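/-
S15 cell, brick (M*) — part (MS-b) (helper42): **Galois-fixedness of the place over the Vélu
pair**, from the uniqueness statement (M3c).

`PlaceUnique` is the literal of (M3c) (`place_unique_of_type_inf`): over a pair `(b, a)` with
`b ∉ A` and `|a / b^p|_A = 1` (`A` over `ℓ ≥ 5`, `ℓ ≠ p`) there is at most one place of `X₀(p)`.
If `b`, `a` are rational, the arithmetic Galois action maps a place over `(b, a)` to a place
over `(b, a)` (the functions `j(q^d)` have rational coefficients), hence fixes it: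
`placeFix : PlaceUnique → Asm42.PlaceFix`.
-/
import Mathlib
import Fermat.Agent.S15P.MStar.Asm42

set_option autoImplicit false

noncomputable section

namespace Fermat.Agent.S15P.MStar.Fix42

open AlgebraicCurve ModularCurve Fermat.Agent.S24 Fermat.Agent.S15P.MStar.Asm42

local notation "Qb" => AlgebraicClosure ℚ
local notation "GQ" => (AlgebraicClosure ℚ) ≃ₐ[ℚ] (AlgebraicClosure ℚ)

/-- **(M3c)** as a statement: uniqueness of the place of type `∞` over `(b, a)`. -/
def PlaceUnique : Prop :=
  ∀ (p : ℕ) [NeZero p], p.Prime → ∀ ℓ : ℕ, ℓ.Prime → ℓ ≠ p → 5 ≤ ℓ →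
    ∀ A : ValuationSubring Qb, A.LiesOverPrime ℓ →
    ∀ b a : Qb, b ∉ A → A.valuation (a / b ^ p) = 1 →
    ∀ x x' : Place Qb (FN p), Over p x b a → Over p x' b a → x = x'

/-- The functions `j(q^d)` are fixed by the arithmetic Galois action. -/
theorem smul_jFormal (N : ℕ) [NeZero N] (d : Dv N) (σ : GQ) :
    arithmeticGalois (modularFunctionFieldFull N) σ • jFormal N d = jFormal N d := by
  have : NeZero d.1 := d.neZero
  apply Subtype.ext
  show coeffMap (σ : Qb →+* Qb) (coeffEmb Qb (qExpand ℚ d.1 jq)) = coeffEmb Qb (qExpand ℚ d.1 jq)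
  exact coeffMap_coeffEmb σ _

/-- The arithmetic Galois action on `j(q^d) − c`. -/
theorem smul_jFormal_sub (N : ℕ) [NeZero N] (d : Dv N) (σ : GQ) (c : Qb) :
    arithmeticGalois (modularFunctionFieldFull N) σ • (jFormal N d - algebraMap Qb (FN N) c) =
      jFormal N d - algebraMap Qb (FN N) (σ c) := by
  rw [smul_sub, smul_jFormal, SemilinearAut.smul_algebraMap]
  rfl

/-- Transport: if `x` lies over `(b, a)` then `σ • x` lies over `(σ b, σ a)`. -/
theorem over_smul (p : ℕ) [NeZero p] (x : Place Qb (FN p)) (b a : Qb) (σ : GQ)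
    (h : Over p x b a) :
    Over p (arithmeticGalois (modularFunctionFieldFull p) σ • x) (σ b) (σ a) := by
  obtain ⟨h1, h2⟩ := h
  refine ⟨?_, ?_⟩
  · rw [← smul_jFormal_sub, SemilinearAut.ord_smul]
    exact h1
  · rw [← smul_jFormal_sub, SemilinearAut.ord_smul]
    exact h2

/-- **(MS-b)**: the place over a rational pair of type `∞` is Galois-fixed. -/
theorem placeFix (hU : PlaceUnique) : PlaceFix := by
  intro p _ hp ℓ hℓ h5 hℓp A hA b a hb ha hbA hu x hx σ
  have h := over_smul p x b a σ hx
  rw [hb σ, ha σ] at h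
  exact hU p hp ℓ hℓ hℓp h5 A hA b a hbA hu _ x h hx

end Fermat.Agent.S15P.MStar.Fix42
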